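import Fermat.Agent.S16.Defs


/-!
# S16: the algebra of the top-level reduction
Owner: helper16.
-/

set_option autoImplicit false

namespace Fermat.Agent.S16

open ModularCurve CuspForm

/-- Abstract form of the top-level reduction: if `φ : A → T` is onto and `ε : A → ℤ` is a ring
homomorphism such that `ε (ker φ) = nℤ`, then `T / φ(ker ε)` has `n` elements. -/
theorem card_quot_map_ker {A T : Type*} [CommRing A] [CommRing T] (φ : A →+* T)
    (hφ : Function.Surjective φ) (ε : A →+* ℤ) (n : ℕ)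
    (hA : ∀ P, φ P = 0 → (n : ℤ) ∣ ε P) (hB : ∃ P, φ P = 0 ∧ ε P = n) :
    Nat.card (T ⧸ Ideal.map φ (RingHom.ker ε)) = n := by
  classical
  set g : A →+* ZMod n := (Int.castRingHom (ZMod n)).comp ε with hg
  have hker : RingHom.ker φ ≤ RingHom.ker g := by
    intro P hP
    rw [RingHom.mem_ker] at hP ⊢
    rw [hg, RingHom.comp_apply, eq_intCast, ZMod.intCast_zmod_eq_zero_iff_dvd]
    exact hA P hP
  set gbar : T →+* ZMod n := RingHom.liftOfSurjective φ hφ ⟨g, hker⟩ with hgbar
  have hcomp : ∀ P, gbar (φ P) = g P := fun P =>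
    RingHom.liftOfRightInverse_comp_apply _ _ (Function.surjInv_eq hφ) ⟨g, hker⟩ P
  have hsurj : Function.Surjective gbar := by
    intro x
    obtain ⟨c, rfl⟩ := ZMod.intCast_surjective x
    refine ⟨c, ?_⟩
    simp
  have hkereq : RingHom.ker gbar = Ideal.map φ (RingHom.ker ε) := by
    apply le_antisymm
    · intro t ht
      obtain ⟨P, rfl⟩ := hφ t
      rw [RingHom.mem_ker, hcomp, hg, RingHom.comp_apply, eq_intCast,
        ZMod.intCast_zmod_eq_zero_iff_dvd] at ht
      obtain ⟨c, hc⟩ := ht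
      obtain ⟨P₀, hP₀, hε₀⟩ := hB
      have h1 : P - (c : A) * P₀ ∈ RingHom.ker ε := by
        rw [RingHom.mem_ker, map_sub, map_mul, map_intCast, hε₀, hc]
        simp [mul_comm]
      have h2 : φ (P - (c : A) * P₀) = φ P := by
        rw [map_sub, map_mul, hP₀, mul_zero, sub_zero]
      rw [← h2]
      exact Ideal.mem_map_of_mem φ h1
    · rw [Ideal.map_le_iff_le_comap]
      intro P hP
      rw [Ideal.mem_comap, RingHom.mem_ker, hcomp, hg, RingHom.comp_apply]
      rw [RingHom.mem_ker] at hP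
      rw [hP]; simp
  rw [← hkereq]
  rw [Nat.card_congr (RingHom.quotientKerEquivOfSurjective hsurj).toEquiv, Nat.card_zmod]

/-- `heckeEvalForms` is onto: the Hecke algebra is generated by the `T_ℓ` and `U_q`. -/
theorem heckeEvalForms_surjective (N : ℕ) [NeZero N] (k : ℤ) :
    Function.Surjective (heckeEvalForms N k) := by
  intro t
  obtain ⟨t, ht⟩ := t
  have key : ∀ x ∈ heckeAlgebra N k ∅, ∃ P : HeckeAlg,
      ((heckeEvalForms N k P : heckeAlgebra N k ∅) :
        Module.End ℂ (CuspForm (CongruenceSubgroup.Gamma0 N) k)) = x := by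
    intro x hx
    refine Algebra.adjoin_induction (p := fun x _ => ∃ P : HeckeAlg,
      ((heckeEvalForms N k P : heckeAlgebra N k ∅) :
        Module.End ℂ (CuspForm (CongruenceSubgroup.Gamma0 N) k)) = x) ?_ ?_ ?_ ?_ hx
    · rintro x (⟨ℓ, hℓ, hℓN, -, rfl⟩ | ⟨q, hqN, hq, -, rfl⟩)
      · refine ⟨heckeGen ⟨ℓ, hℓ⟩, ?_⟩
        rw [heckeEvalForms_heckeGen_of_not_dvd (N := N) (k := k) (ℓ := ⟨ℓ, hℓ⟩) hℓN]
        rfl
      · refine ⟨heckeGen ⟨q, hq⟩, ?_⟩
        rw [heckeEvalForms_heckeGen_of_dvd (N := N) (k := k) (q := ⟨q, hq⟩) hqN]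
        rfl
    · intro r
      refine ⟨MvPolynomial.C r, ?_⟩
      rw [heckeEvalForms_C]
      rfl
    · rintro x y _ _ ⟨P, rfl⟩ ⟨Q, rfl⟩
      exact ⟨P + Q, by rw [map_add]; rfl⟩
    · rintro x y _ _ ⟨P, rfl⟩ ⟨Q, rfl⟩
      exact ⟨P * Q, by rw [map_mul]; rfl⟩
  obtain ⟨P, hP⟩ := key t ht
  exact ⟨P, Subtype.ext hP⟩

/-- Algebra: the two bounds give the cardinality of `T/I`. -/
theorem card_of_bounds' (p : ℕ) [Fact p.Prime] (hint : HasIntegralStructure p 2)
    (hL : LowerBound p) (hU : UpperBound p) :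
    Nat.card (↥(heckeLatticeAlgebra p ∅) ⧸
        Ideal.map ((latticeRestrictHom p ∅).toRingHom.comp (heckeEvalForms p 2))
          (eisensteinIdeal p)) =
      eisensteinNumerator p := by
  have hbij := latticeRestrictHom_bijective p ∅ hint
  have hsurj : Function.Surjective
      ((latticeRestrictHom p ∅).toRingHom.comp (heckeEvalForms p 2)) :=
    hbij.2.comp (heckeEvalForms_surjective p 2)
  have hzero : ∀ P, ((latticeRestrictHom p ∅).toRingHom.comp (heckeEvalForms p 2)) P = 0 ↔
      heckeEvalForms p 2 P = 0 := by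
    intro P
    rw [RingHom.comp_apply]
    constructor
    · intro h
      apply hbij.1
      rw [map_zero]
      exact h
    · intro h
      rw [h, map_zero]
  have := card_quot_map_ker _ hsurj (eisEval p) (eisensteinNumerator p)
    (fun P hP => hL P ((hzero P).1 hP))
    (by obtain ⟨P, hP, hε⟩ := hU; exact ⟨P, (hzero P).2 hP, hε⟩)
  exact this

end Fermat.Agent.S16
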