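import Mathlib.NumberTheory.ModularForms.LevelOne.Basic
import Mathlib.RingTheory.PowerSeries.Expand
import Mathlib.RingTheory.MvPolynomial.Symmetric.Defs
import Fermat.Prelude.Def_CuspForm_HeckeLocal
import Fermat.Prelude.Def_CuspForm_HeckeEvalForms
import Fermat.Prelude.Def_HeckeGalois_EichlerShimura
import Fermat.Prelude.Def_ModularCurve_ModularUnit

/-!
# S16 (index of the Eisenstein ideal): interface definitions

Architect: helper16.  Blueprint / owner table: `NOTES/S16-assignments.md`.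
All S16 files live in `Fermat/Agent/S16/` and use the namespace `Fermat.Agent.S16`
(sub-namespaces allowed).  This file contains ONLY definitions (no `sorry`), it is the
contract between the pieces.  Do not edit it without asking helper16 on the board.

Notation: `p` is the (prime) level, `n = eisensteinNumerator p = (p-1)/gcd(p-1,12)`.
-/

set_option autoImplicit false

namespace Fermat.Agent.S16

open ModularCurve CuspForm UpperHalfPlane ModularFormClass
open scoped MatrixGroups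

noncomputable section

/-! ## Top level: two inclusions between ideals of `ℤ` -/

/-- Evaluation of a Hecke polynomial at the Eisenstein eigensystem
(`X_ℓ ↦ 1 + ℓ` for `ℓ ≠ p`, `X_p ↦ 1`). Its kernel is `eisensteinIdeal p` by definition. -/
def eisEval (p : ℕ) : HeckeAlg →+* ℤ :=
  (MvPolynomial.aeval (R := ℤ) (eisensteinSystem p)).toRingHom

/-- LOWER bound `n ∣ #(T/I)`: every Hecke polynomial that annihilates `S₂(Γ₀(p))`
has Eisenstein value divisible by `n`. -/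
def LowerBound (p : ℕ) [NeZero p] : Prop :=
  ∀ P : HeckeAlg, heckeEvalForms p 2 P = 0 → (eisensteinNumerator p : ℤ) ∣ eisEval p P

/-- UPPER bound `#(T/I) ∣ n`: some Hecke polynomial annihilating `S₂(Γ₀(p))` has Eisenstein
value exactly `n`. -/
def UpperBound (p : ℕ) [NeZero p] : Prop :=
  ∃ P : HeckeAlg, heckeEvalForms p 2 P = 0 ∧ eisEval p P = (eisensteinNumerator p : ℤ)

/-! ## Forms side of the upper bound -/

/-- `σ'(k) = ∑_{d ∣ k, p ∤ d} d`, the `k`-th coefficient of the Eisenstein series of level `p`. -/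
def sigmaP (p k : ℕ) : ℕ := ∑ d ∈ k.divisors with ¬ p ∣ d, d

/-- Forms side of the upper bound: a cusp form with integral `q`-expansion that is congruent
to `E' = ∑ σ'(k) q^k` modulo `m` exists only if `m ∣ n`. -/
def FormsBound (p : ℕ) : Prop :=
  ∀ (m : ℕ) (f : CuspForm (CongruenceSubgroup.Gamma0 p) 2),
    (∀ k : ℕ, 1 ≤ k → ∃ c : ℤ, qCoeff f k = (c : ℂ) ∧ (m : ℤ) ∣ c - (sigmaP p k : ℤ)) →
    m ∣ eisensteinNumerator p

/-- The Eisenstein series `24·E = (p-1) + 24 ∑ σ'(k) q^k = p E₂(pz) - E₂(z)` exists in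
`M₂(Γ₀(p))`. -/
def EisForm (p : ℕ) : Prop :=
  ∃ E : ModularForm (CongruenceSubgroup.Gamma0 p) 2,
    qCoeff E 0 = ((p : ℂ) - 1) ∧ ∀ k : ℕ, 1 ≤ k → qCoeff E k = 24 * (sigmaP p k : ℂ)

/-- `NoCong p ℓ t`: there is no `G ∈ M₂(Γ₀(p))` with integral `q`-expansion,
`a₀(G)` prime to `ℓ`, and `ℓ^t ∣ a_k(G)` for all `k ≥ 1`
(i.e. no form `≡ unit constant mod ℓ^t`). -/
def NoCong (p ℓ t : ℕ) : Prop :=
  ∀ (G : ModularForm (CongruenceSubgroup.Gamma0 p) 2) (a : ℕ → ℤ),
    (∀ k : ℕ, qCoeff G k = (a k : ℂ)) → (∀ k : ℕ, 1 ≤ k → (ℓ : ℤ) ^ t ∣ a k) → (ℓ : ℤ) ∣ a 0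

/-- The exponent needed at `ℓ`: `t = 1 + v_ℓ(24) - min(v_ℓ(p-1), v_ℓ(12))`.
So `t = 1` for `ℓ ≥ 5`; `ℓ = 3`: `t = 1` if `p ≡ 1 (3)`, else `2`;
`ℓ = 2`: `t = 2` if `p ≡ 1 (4)`, else `3`. -/
def congExp (p ℓ : ℕ) : ℕ :=
  1 + padicValNat ℓ 24 - min (padicValNat ℓ (p - 1)) (padicValNat ℓ 12)

/-- All the congruence exclusions needed for the upper bound at level `p`. -/
def NoCongAll (p : ℕ) : Prop := ∀ ℓ : ℕ, ℓ.Prime → NoCong p ℓ (congExp p ℓ)

/-! ## Toolkit: expansions at the cusp `0` and the conjugates over level one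

For `F ∈ M_k(Γ₀(p))` put `F°(z) := (pz)^{-k} F(-1/(pz))`, again in `M_k(Γ₀(p))`.
`Z k F` below is the `q`-expansion of `F°`.  The `p + 1` conjugates of `F` under `SL₂(ℤ)` are
`F` and `F°((z+j)/p)`, `j = 0..p-1`; in the variable `X = q^{1/p}` their expansions are
`A(X^p)` and `B(ζ^j X)` with `A = qExpansion 1 F`, `B = Z k F`, `ζ = exp(2πi/p)`. -/

/-- `ζ_p = exp(2πi/p)`. -/
def zetaP (p : ℕ) : ℂ := Complex.exp (2 * Real.pi * Complex.I / p)

/-- The `p+1` conjugate series in the variable `X = q^{1/p}`. -/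
def conjSeries (p : ℕ) (hp : p ≠ 0) (A B : PowerSeries ℂ) : Multiset (PowerSeries ℂ) :=
  PowerSeries.expand p hp A ::ₘ (Multiset.range p).map fun j => PowerSeries.rescale (zetaP p ^ j) B

/-- Data of the expansion at the cusp `0` for forms on `Γ₀(p)`, with all the properties the
congruence arguments use.  Everything is expressed through `q`-expansions. -/
structure CuspZeroData (p : ℕ) (hp : p ≠ 0) where
  /-- the `q`-expansion of `F°(z) = (pz)^{-k} F(-1/(pz))` -/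
  Z : ∀ k : ℤ, ModularForm (CongruenceSubgroup.Gamma0 p) k → PowerSeries ℂ
  Z_add : ∀ (k : ℤ) (F G : ModularForm (CongruenceSubgroup.Gamma0 p) k),
    Z k (F + G) = Z k F + Z k G
  Z_smul : ∀ (k : ℤ) (c : ℂ) (F : ModularForm (CongruenceSubgroup.Gamma0 p) k),
    Z k (c • F) = c • Z k F
  /-- multiplicativity, stated on underlying functions -/
  Z_mul : ∀ (k₁ k₂ : ℤ) (F : ModularForm (CongruenceSubgroup.Gamma0 p) k₁)
    (G : ModularForm (CongruenceSubgroup.Gamma0 p) k₂)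
    (H : ModularForm (CongruenceSubgroup.Gamma0 p) (k₁ + k₂)),
    (⇑H : ℍ → ℂ) = ⇑F * ⇑G → Z (k₁ + k₂) H = Z k₁ F * Z k₂ G
  /-- on level one forms: `E° = E(pz)` -/
  Z_levelOne : ∀ (k : ℤ) (E : ModularForm 𝒮ℒ k) (F : ModularForm (CongruenceSubgroup.Gamma0 p) k),
    (⇑F : ℍ → ℂ) = ⇑E → Z k F = PowerSeries.expand p hp (qExpansion 1 E)
  /-- `F°` is again a form on `Γ₀(p)`, and `(F°)° = p^{-k} F` (even weight) -/
  Z_swap : ∀ (k : ℤ), Even k → ∀ F : ModularForm (CongruenceSubgroup.Gamma0 p) k,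
    ∃ F' : ModularForm (CongruenceSubgroup.Gamma0 p) k,
      qExpansion 1 F' = Z k F ∧ Z k F' = ((p : ℂ) ^ k)⁻¹ • qExpansion 1 F
  /-- the elementary symmetric functions of the `p+1` conjugates are level one forms
  (`i = 1` is the trace `Tr F = F + p U_p F°`, `i = p + 1` the norm) -/
  esymm_conj : ∀ (k : ℤ) (F : ModularForm (CongruenceSubgroup.Gamma0 p) k) (i : ℕ),
    ∃ e : ModularForm 𝒮ℒ (k * i),
      PowerSeries.expand p hp (qExpansion 1 e) =
        (conjSeries p hp (qExpansion 1 F) (Z k F)).esymm i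

/-! ## Swinnerton-Dyer input (`ℓ ≥ 5`) -/

/-- A level one form of weight `k` with `ℓ`-integral rational `q`-expansion which is congruent
to a unit constant mod `ℓ` has weight divisible by `ℓ - 1`. -/
def SwDConst (ℓ : ℕ) : Prop :=
  ∀ (k : ℤ) (e : ModularForm 𝒮ℒ k) (a : ℕ → ℚ),
    (∀ n : ℕ, (qExpansion 1 e).coeff n = (a n : ℂ)) →
    (∀ n : ℕ, ¬ ℓ ∣ (a n).den) →
    (∀ n : ℕ, 1 ≤ n → (ℓ : ℤ) ∣ (a n).num) →
    ¬ (ℓ : ℤ) ∣ (a 0).num →
    ((ℓ : ℤ) - 1) ∣ k

end

end Fermat.Agent.S16
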