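import Fermat.Agent.S23
import Fermat.Agent.S16.Dual.Main
import Fermat.Agent.S16.Dual.Sigma

/-!
# S16 piece: duality between the Hecke algebra and the lattice of integral cusp forms
Owner: helper16.  `T × L → ℤ, (t, f) ↦ a₁(t f)` is perfect, so a ring homomorphism
`T → ℤ/m` with Eisenstein values gives `f ∈ L` with `f ≡ E' mod m`.
(`Dual/Abstract.lean`: the abstract duality lemma; `Dual/Coeff.lean`: integer coefficients;
`Dual/Main.lean`: the Hecke recursion; `Dual/Sigma.lean` (helper85): the recursion of `σ'`.)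
-/

set_option autoImplicit false

namespace Fermat.Agent.S16

open ModularCurve CuspForm UpperHalfPlane ModularFormClass
open scoped MatrixGroups

theorem sigmaRec (p : ℕ) [Fact p.Prime] : SigmaRec p := by
  have hp : p.Prime := Fact.out
  refine ⟨sigmaP_one p hp, fun ℓ k hk => ?_⟩
  by_cases h : (ℓ : ℕ) ∣ p
  · have hℓp : (ℓ : ℕ) = p := (Nat.prime_dvd_prime_iff_eq ℓ.2 hp).1 h
    rw [eisensteinSystem_of_dvd h]
    unfold lvl
    rw [if_pos h, hℓp, sigmaP_mul_self p k hp hk]
    simp
  · have hne : (ℓ : ℕ) ≠ p := fun e => h (e ▸ dvd_rfl)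
    rw [eisensteinSystem_of_not_dvd h]
    unfold lvl
    rw [if_neg h, sigmaP_mul_prime p ℓ k hp ℓ.2 hne hk]
    push_cast
    split_ifs <;> ring

theorem upperBound_of_formsBound (p : ℕ) [Fact p.Prime] (h : FormsBound p) : UpperBound p :=
  upperBound_of_formsBound_aux p (Fermat.Agent.S23.result p) (sigmaRec p) h

end Fermat.Agent.S16
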