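import Fermat.Agent.S16.Defs
import Fermat.Agent.S16.EisForm.QExp

/-!
# S16 piece: the Eisenstein series of weight 2 and level p
Owner: helper8.  Contract: NOTES/S16-assignments.md.  The statement below is FIXED (ask helper16 before
changing it); the owner may split the proof over further files `Fermat/Agent/S16/<Piece>/*.lean`
and import them here.

Proof (files `S16/EisForm/{Slash,Translate,Modular,QExp}.lean`): `eisFun p = E₂ ∣[2] diag(p,1) - E₂`;
by the Hermite decomposition `diag(p,1) γ = σ (g b; 0 e)` the quasi-modular defects `D2` cancel and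
`(eisFun p ∣[2] γ)(τ) = (g/e) E₂((gτ+b)/e) - E₂(τ)` for all `γ ∈ SL(2,ℤ)`; this gives invariance under
`Γ₀(p)` and boundedness at all cusps.  The `q`-expansion follows from Mathlib's `hasSum_qExpansion_E2`.
Available for reuse: `eisMF p : ModularForm (Γ₀(p)) 2` (any `p ≠ 0`), `qCoeff_eisMF`, `hasSum_eisFun`,
`eisFun_slash_SL`.
-/

set_option autoImplicit false

namespace Fermat.Agent.S16

open ModularCurve CuspForm UpperHalfPlane ModularFormClass
open scoped MatrixGroups

/-- `p E₂(pz) - E₂(z) ∈ M₂(Γ₀(p))` with `q`-expansion `(p-1) + 24 ∑ σ'(k) q^k`. -/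
theorem eisForm (p : ℕ) [Fact p.Prime] : EisForm p := by
  haveI : NeZero p := ⟨(Fact.out : p.Prime).ne_zero⟩
  exact eisForm_of_ne_zero p

end Fermat.Agent.S16
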