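import Fermat.Agent.S16.Defs
import Fermat.Agent.S16.FormsBound.Core
import Fermat.Agent.S07
import Fermat.Agent.S20.Cosets.Count

/-!
# S16 piece: the forms bound from the congruence exclusions
Owner: helper16.  Pure arithmetic: `G := (E - 24 f)/ℓ^{v_ℓ(p-1)}`.
-/

set_option autoImplicit false

namespace Fermat.Agent.S16

open ModularCurve CuspForm UpperHalfPlane ModularFormClass
open scoped MatrixGroups

/-- `p ≥ 5`: the forms bound follows from the Eisenstein series and the congruence exclusions. -/
theorem formsBound_of_noCong (p : ℕ) [Fact p.Prime] (hE : EisForm p) (hN : NoCongAll p) :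
    FormsBound p := by
  intro m f hf
  obtain ⟨E, hE0, hEk⟩ := hE
  choose! c hc using hf
  have hp : 2 ≤ p := (Fact.out : p.Prime).two_le
  have key : ∀ ℓ : ℕ, ℓ.Prime → ¬ ℓ ^ ((eisensteinNumerator p).factorization ℓ + 1) ∣ m :=
    fun ℓ hℓ => FB.not_pow_dvd p E hE0 hEk m f c (fun k hk => (hc k hk).1)
      (fun k hk => (hc k hk).2) ℓ hℓ (hN ℓ hℓ)
  have hm : m ≠ 0 := by
    rintro rfl
    exact key 2 Nat.prime_two (dvd_zero _)
  have hn := FB.eisensteinNumerator_ne_zero p hp
  rw [← Nat.factorization_prime_le_iff_dvd hm hn]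
  intro ℓ hℓ
  by_contra hcon
  push Not at hcon
  exact key ℓ hℓ ((hℓ.pow_dvd_iff_le_factorization hm).2 (by omega))

/-- `p = 2, 3`: `S₂(Γ₀(p)) = 0`. -/
theorem formsBound_small (p : ℕ) [Fact p.Prime] (hp : p < 5) : FormsBound p := by
  intro m f hf
  have hpp : p.Prime := Fact.out
  have : NeZero p := ⟨hpp.ne_zero⟩
  -- the index of `Γ₀(p)` is `ψ(p) = p + 1 < 6`
  have hidx : (CongruenceSubgroup.Gamma0 p).index < 6 := by
    have h1 := Fermat.Agent.S20.card_cosetX_aux p
    rw [Subgroup.index, h1]
    have hp2 : p = 2 ∨ p = 3 := by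
      have h2 := hpp.two_le
      interval_cases p
      · left; rfl
      · right; rfl
      · exact absurd hpp (by norm_num)
    rcases hp2 with rfl | rfl
    · have h : (Nat.divisors 2) = {1, 2} := by decide
      unfold ModularCurve.dedekindPsi
      rw [h, Finset.sum_filter, Finset.sum_insert (by decide), Finset.sum_singleton]
      rw [if_pos squarefree_one, if_pos Nat.prime_two.squarefree]
      norm_num
    · have h : (Nat.divisors 3) = {1, 3} := by decide
      unfold ModularCurve.dedekindPsi
      rw [h, Finset.sum_filter, Finset.sum_insert (by decide), Finset.sum_singleton]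
      rw [if_pos squarefree_one, if_pos Nat.prime_three.squarefree]
      norm_num
  have hf0 : f = 0 := Fermat.Agent.S07.S07_eq_zero_of_index_lt hidx f
  obtain ⟨c, hc, hcm⟩ := hf 1 le_rfl
  have hq : qCoeff (⇑f) 1 = 0 := by
    rw [hf0]
    unfold qCoeff
    have : (⇑(0 : CuspForm (CongruenceSubgroup.Gamma0 p) 2) : ℍ → ℂ) = 0 := rfl
    rw [this, UpperHalfPlane.qExpansion_zero]
    simp
  have hc0 : c = 0 := by
    rw [hq] at hc
    exact_mod_cast hc.symm
  have hs : sigmaP p 1 = 1 := by
    unfold sigmaP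
    rw [Nat.divisors_one, Finset.filter_singleton, if_pos]
    · simp
    · exact fun h => hpp.one_lt.ne' (Nat.dvd_one.1 h)
  rw [hc0, hs] at hcm
  have h1 : (m : ℤ) ∣ 1 := by
    have := (dvd_neg).2 hcm
    simpa using this
  have hm1 : m = 1 := by
    have := Int.natCast_dvd_natCast.1 (show ((m : ℕ) : ℤ) ∣ ((1 : ℕ) : ℤ) by simpa using h1)
    exact Nat.dvd_one.1 this
  rw [hm1]
  exact one_dvd _

end Fermat.Agent.S16
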