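import Fermat.Agent.S16.Defs
import Fermat.Agent.S16.NormInt.Conj
import Fermat.Agent.S16.NormInt.Fricke

/-!
# S16 piece: analytic toolkit (expansion at the cusp 0, conjugates, esymm)
Owner: helper23 (sub-architect; hands helper67, helper77, helper33).  Contract: NOTES/S16-assignments.md.  The statement below is FIXED (ask helper16 before
changing it); the owner may split the proof over further files `Fermat/Agent/S16/<Piece>/*.lean`
and import them here.

Proof: `Z k F := qExpansion 1 (cuspZero p k F)`, `cuspZero p k F = fun z => (F ∣[k] S) (p z)`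
(files `Fermat/Agent/S16/NormInt/*.lean`).
-/

set_option autoImplicit false

namespace Fermat.Agent.S16

open ModularCurve CuspForm UpperHalfPlane ModularFormClass
open scoped MatrixGroups

open Fermat.Agent.S16Norm Fermat.Agent.S23 Fermat.Agent.S23Converse

/-- The expansion-at-`0` data exists. -/
theorem nonempty_cuspZeroData (p : ℕ) [Fact p.Prime] :
    Nonempty (CuspZeroData p (Fact.out : p.Prime).ne_zero) := by
  haveI : NeZero p := ⟨(Fact.out : p.Prime).ne_zero⟩
  have hp : p ≠ 0 := (Fact.out : p.Prime).ne_zero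
  have hgood : ∀ (k : ℤ) (F : ModularForm (G0 p) k), IsGood (⇑F : ℍ → ℂ) := fun k F =>
    isGood_of_modularFormClass (one_mem_strictPeriods_G0 p) F
  refine ⟨{
    Z := fun k F => qExpansion 1 (cuspZero p k (⇑F : ℍ → ℂ))
    Z_add := fun k F G => ?_
    Z_smul := fun k c F => ?_
    Z_mul := fun k₁ k₂ F G H hH => ?_
    Z_levelOne := fun k E F hF => ?_
    Z_swap := fun k hk F => ?_
    esymm_conj := fun k F i => ?_ }⟩
  · have h : (⇑(F + G) : ℍ → ℂ) = ⇑F + ⇑G := rfl
    rw [h, cuspZero_add]
    exact (isGood_cuspZero (p := p) F).qExpansion_add (isGood_cuspZero G)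
  · have h : (⇑(c • F) : ℍ → ℂ) = c • ⇑F := rfl
    rw [h, cuspZero_smul]
    exact UpperHalfPlane.qExpansion_smul (isGood_cuspZero (p := p) F).analyticAt c
  · rw [hH, cuspZero_mul]
    exact (isGood_cuspZero (p := p) F).qExpansion_mul (isGood_cuspZero G)
  · rw [hF, cuspZero_levelOne]
    exact qExpansion_dil hp (isGood_of_modularFormClass _root_.one_mem_strictPeriods_SL E)
  · obtain ⟨F', hF'⟩ := exists_fricke p k F
    refine ⟨F', by rw [hF'], ?_⟩
    show qExpansion 1 (cuspZero p k (⇑F' : ℍ → ℂ)) = _
    rw [hF', cuspZero_cuspZero p hp k hk]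
    exact UpperHalfPlane.qExpansion_smul (hgood k F).analyticAt _
  · obtain ⟨e, he⟩ := isMF_esymmFun p F i
    refine ⟨e, ?_⟩
    have h1 := qExpansion_dil hp (isGood_of_modularFormClass _root_.one_mem_strictPeriods_SL e)
    rw [← h1, he]
    exact qExpansion_dil_esymmFun F i

end Fermat.Agent.S16
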