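import Fermat.Agent.S16.Defs
import Fermat.Agent.S16.LB.Main

/-!
# S16 piece: LOWER bound n | #(T/I)
Owner: helper22 (sub-architect; hands helper44, helper97, helper23, helper34).
Contract: NOTES/S16-assignments.md, NOTES/S16-LB-blueprint.md.  The statement below is FIXED.
The proof is in `Fermat/Agent/S16/LB/*.lean` (assembly: `LB/Main.lean`).
-/

set_option autoImplicit false

namespace Fermat.Agent.S16

open ModularCurve CuspForm UpperHalfPlane ModularFormClass
open scoped MatrixGroups

/-- Lower bound (Dedekind-Rademacher route, helper22's note). -/
theorem lowerBound (p : ℕ) [Fact p.Prime] : LowerBound p :=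
  Fermat.Agent.S16.LB.lowerBound_main p

end Fermat.Agent.S16
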