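import Fermat.Agent.S16.Defs
import Fermat.Agent.S16.NoCong2a.Main

/-!
# S16 piece: NoCong for l = 2, p != 7 mod 8 (quadratic trace identity)
Owner: helper29.  Contract: NOTES/S16-assignments.md.  The statement below is FIXED (ask helper16 before
changing it); the owner may split the proof over further files `Fermat/Agent/S16/<Piece>/*.lean`
and import them here.

Proof: `S16/NoCong2a/Core.lean` (`key`), `S16/NoCong2a/Final.lean` (`core_contra`),
`S16/NoCong2a/Main.lean` (wiring with helper69's `NoCong3/Quad.lean`).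
-/

set_option autoImplicit false

namespace Fermat.Agent.S16

open ModularCurve CuspForm UpperHalfPlane ModularFormClass
open scoped MatrixGroups

/-- `p ≡ 1 mod 4`: no form `≡ unit mod 4`. -/
theorem noCong_two_one (p : ℕ) [Fact p.Prime] (hp : p % 4 = 1)
    (T : CuspZeroData p (Fact.out : p.Prime).ne_zero) : NoCong p 2 2 := by
  intro G a ha hdiv
  have hdiv' : ∀ k, 1 ≤ k → (2 : ℤ) ^ 2 ∣ a k := fun k hk => by
    have := hdiv k hk
    exact_mod_cast this
  have := TwoA.no_unit_mod_four (Fact.out : p.Prime) hp T G a ha hdiv'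
  exact_mod_cast this

/-- `p ≡ 3 mod 8`: no form `≡ unit mod 8`. -/
theorem noCong_two_three (p : ℕ) [Fact p.Prime] (hp : p % 8 = 3)
    (T : CuspZeroData p (Fact.out : p.Prime).ne_zero) : NoCong p 2 3 := by
  intro G a ha hdiv
  have hdiv' : ∀ k, 1 ≤ k → (2 : ℤ) ^ 3 ∣ a k := fun k hk => by
    have := hdiv k hk
    exact_mod_cast this
  have := TwoA.no_unit_mod_eight (Fact.out : p.Prime) (Or.inr hp) T G a ha hdiv'
  exact_mod_cast this

end Fermat.Agent.S16
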