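import Fermat.Agent.S16.Defs
import Fermat.Agent.S16.NoCong3.One
import Fermat.Agent.S16.NoCong3.Two

/-!
# S16 piece: NoCong for l = 3 (Artin-Schreier trick / cube trick)
Owner: helper8 + helper69.  Contract: NOTES/S16-assignments.md.  The statement below is FIXED (ask helper16 before
changing it); the owner may split the proof over further files `Fermat/Agent/S16/<Piece>/*.lean`
and import them here.

Proofs (helper69): `noCong_three_one` by the quadratic trace identity `Tr(G²) = (1 + 1/p) a₀² E₄`
(`NoCong3/Quad.lean`, `CoreOne.lean`, `One.lean`); `noCong_three_two` by the norm to level one of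
`F = (p² G² - a₀² E₄) / 3` and the level one Sturm bound modulo `3`
(`NoCong3/NormCong.lean`, `CoreTwo.lean`, `Two.lean`, `ToolkitAlg/LevelOne.lean`).
-/

set_option autoImplicit false

namespace Fermat.Agent.S16

open ModularCurve CuspForm UpperHalfPlane ModularFormClass
open scoped MatrixGroups

/-- `p ≡ 1 mod 3`: no form `≡ unit mod 3`. -/
theorem noCong_three_one (p : ℕ) [Fact p.Prime] (hp5 : 5 ≤ p) (hp : p % 3 = 1)
    (T : CuspZeroData p (Fact.out : p.Prime).ne_zero) : NoCong p 3 1 :=
  noCong_three_one_aux p hp T

/-- any `p ≥ 5`: no form `≡ unit mod 9`. -/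
theorem noCong_three_two (p : ℕ) [Fact p.Prime] (hp5 : 5 ≤ p)
    (T : CuspZeroData p (Fact.out : p.Prime).ne_zero) : NoCong p 3 2 :=
  noCong_three_two_aux p hp5 T

end Fermat.Agent.S16
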