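import Fermat.Agent.S16.Defs
import Fermat.Agent.S16.NoCong5.Core

/-!
# S16 piece: NoCong for l >= 5, l != p (esymm e_i + SwD)
Owner: helper38.  Contract: NOTES/S16-assignments.md.  The statement below is FIXED (ask helper16 before
changing it); the owner may split the proof over further files `Fermat/Agent/S16/<Piece>/*.lean`
and import them here.

Proof (in `NoCong5/Core.lean`, arithmetic in `NoCong5/Arith.lean`): for `G` with integral
`q`-expansion, `ℓ ∣ a_n` (`n ≥ 1`), `ℓ ∤ a₀`, the `i`-th elementary symmetric function of the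
`p + 1` conjugates is a level one form of weight `2 i`, `ℓ`-integral, congruent mod `ℓ` to the
constant `-(-a₀/p)^i (i - 1) C(p + 1, i)`.  There is `i ≤ p + 1` with `(ℓ - 1) ∤ 2 i` and
`ℓ ∤ (i - 1) C(p + 1, i)`, contradicting `SwDConst ℓ`.
-/

set_option autoImplicit false

namespace Fermat.Agent.S16

open ModularCurve CuspForm UpperHalfPlane ModularFormClass
open scoped MatrixGroups

theorem noCong_ge_five (p : ℕ) [Fact p.Prime] (hp5 : 5 ≤ p) (ℓ : ℕ) (hℓ : ℓ.Prime) (h5 : 5 ≤ ℓ)
    (hℓp : ℓ ≠ p) (T : CuspZeroData p (Fact.out : p.Prime).ne_zero) (hS : SwDConst ℓ) :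
    NoCong p ℓ 1 :=
  NC5.noCong_core p Fact.out hp5 ℓ hℓ h5 hℓp T hS

end Fermat.Agent.S16
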