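import Fermat.Agent.S16.Defs
import Fermat.Agent.S16.NoCongP.Core

/-!
# S16 piece: NoCong for l = p >= 5 (Serre's trace trick Tr(G g) + SwD)
Owner: helper8.  Contract: NOTES/S16-assignments.md.  The statement below is FIXED (ask helper16 before
changing it); the owner may split the proof over further files `Fermat/Agent/S16/<Piece>/*.lean`
and import them here.

Proof: `Fermat/Agent/S16/NoCongP/{Bernoulli,Eis,Core}.lean` (von Staudt–Clausen from Mathlib for
`E_{p-1} ≡ 1` mod `p`; `g = β (E_{p-1} - p^{p-1} E_{p-1}(p·))`; trace of `G g` to level one, weight `p+1`).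
-/

set_option autoImplicit false

namespace Fermat.Agent.S16

open ModularCurve CuspForm UpperHalfPlane ModularFormClass
open scoped MatrixGroups

theorem noCong_self (p : ℕ) [Fact p.Prime] (hp5 : 5 ≤ p)
    (T : CuspZeroData p (Fact.out : p.Prime).ne_zero) (hS : SwDConst p) :
    NoCong p p 1 :=
  noCong_self_core p hp5 T hS

end Fermat.Agent.S16
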