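import Fermat.Agent.S16.Defs
import Fermat.Agent.S16.SwD.Final
import Fermat.Agent.S16.SwD.RamanujanE2
import Fermat.Agent.S16.SwD.RatInt

/-!
# S16 piece: Swinnerton-Dyer: level one form = unit constant mod l has weight = 0 mod l-1
Owner: helper34 + helper58.  Contract: NOTES/S16-assignments.md.  The statement below is FIXED (ask helper16 before
changing it); the owner may split the proof over further files `Fermat/Agent/S16/<Piece>/*.lean`
and import them here.

Proof (all in `Fermat/Agent/S16/SwD/`): `Alg.lean` (algebraic core in `κ[Q,R]`, helper58), `Series.lean`, `QExp.lean`,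
`RamZ.lean` (integer `q`-series of `E₂, E₄, E₆, Δ` and Ramanujan's identities over `ℤ`), `RamanujanE2.lean` (helper58),
`Miller.lean` (integral Miller basis), `RatInt.lean` (`ℓ`-integral rationals, von Staudt-Clausen, helper58),
`Main.lean`, `Final.lean` (assembly).
-/

set_option autoImplicit false

namespace Fermat.Agent.S16

open ModularCurve CuspForm UpperHalfPlane ModularFormClass
open scoped MatrixGroups

theorem swdConst (ℓ : ℕ) (hℓ : ℓ.Prime) (h5 : 5 ≤ ℓ) : SwDConst ℓ := by
  haveI : Fact ℓ.Prime := ⟨hℓ⟩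
  exact Fermat.Agent.SwD.swdConst_of Fermat.Agent.SwD.ramanujanE2 ℓ h5
    (Fermat.Agent.S16SwD.ratInt ℓ) (fun _ hx => Fermat.Agent.S16SwD.mem_ratInt_iff.mpr hx)
    (Fermat.Agent.S16SwD.ratIntToZMod ℓ) (Fermat.Agent.S16SwD.ratIntToZMod_eq_zero_iff ℓ)
    (Fermat.Agent.S16SwD.bernoulli_ratio_mem (by omega))
    (Fermat.Agent.S16SwD.bernoulli_ratio_num (by omega))

end Fermat.Agent.S16
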