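import Fermat.Agent.S16.Defs
import Fermat.Agent.S16.TwoAdic7.Main
import Fermat.Agent.S16.TwoAdic7.OddRing

/-!
# S16 piece: NoCong for l = 2, p = 7 mod 8 (helper37's value-at-rho argument)
Owner: helper37 (sub-architect; hands helper88, helper99), then helper67 (sub-architect).
Contract: NOTES/S16-assignments.md.  The statement below is FIXED (ask helper16 before
changing it).  Proof: `Fermat/Agent/S16/TwoAdic7/*.lean` (contract `TwoAdic7/Defs.lean`):
Algebra, Rho, FormExp (helper88), Root + ToolkitAlg (helper99), FormInt, OddRing, Main (helper67).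
-/

set_option autoImplicit false

namespace Fermat.Agent.S16

open ModularCurve CuspForm UpperHalfPlane ModularFormClass
open scoped MatrixGroups

/-- `p ≡ 7 mod 8`: no form `≡ unit mod 8`. -/
theorem noCong_two_seven (p : ℕ) [Fact p.Prime] (hp : p % 8 = 7)
    (T : CuspZeroData p (Fact.out : p.Prime).ne_zero) : NoCong p 2 3 := by
  have hodd : Odd p := by
    rw [Nat.odd_iff]
    omega
  obtain ⟨R, hpR, h2R⟩ := Fermat.Agent.S16TA.exists_oddIntRing p hodd
  exact Fermat.Agent.S16TA.noCong_two_seven_of_ring p hp T R hpR h2R

end Fermat.Agent.S16
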