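import Fermat.Agent.S16.Toolkit
import Fermat.Agent.S16.SwD
import Fermat.Agent.S16.NoCong5
import Fermat.Agent.S16.NoCongP
import Fermat.Agent.S16.NoCong3
import Fermat.Agent.S16.NoCong2a
import Fermat.Agent.S16.TwoAdic7

/-!
# S16: collecting the congruence exclusions
Owner: helper16.
-/

set_option autoImplicit false

namespace Fermat.Agent.S16

open ModularCurve CuspForm UpperHalfPlane ModularFormClass
open scoped MatrixGroups

theorem NoCong.mono {p ℓ t t' : ℕ} (h : NoCong p ℓ t) (htt : t ≤ t') : NoCong p ℓ t' := by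
  intro G a ha hdiv
  exact h G a ha fun k hk => (pow_dvd_pow (ℓ : ℤ) htt).trans (hdiv k hk)

theorem congExp_of_five_le (p ℓ : ℕ) (hℓ : ℓ.Prime) (h5 : 5 ≤ ℓ) : congExp p ℓ = 1 := by
  have h24 : padicValNat ℓ 24 = 0 := by
    apply padicValNat.eq_zero_of_not_dvd
    intro hd
    have : ℓ ≤ 24 := Nat.le_of_dvd (by norm_num) hd
    interval_cases ℓ <;> simp_all (config := { decide := true })
  have h12 : padicValNat ℓ 12 = 0 := by
    apply padicValNat.eq_zero_of_not_dvd
    intro hd
    have : ℓ ≤ 12 := Nat.le_of_dvd (by norm_num) hd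
    interval_cases ℓ <;> simp_all (config := { decide := true })
  simp [congExp, h24, h12]

theorem padicValNat_three_24 : padicValNat 3 24 = 1 := by
  have : (24 : ℕ) = 3 ^ 1 * 8 := by norm_num
  rw [this, padicValNat.mul (by norm_num) (by norm_num), padicValNat.prime_pow,
    padicValNat.eq_zero_of_not_dvd (by norm_num)]

theorem padicValNat_three_12 : padicValNat 3 12 = 1 := by
  have : (12 : ℕ) = 3 ^ 1 * 4 := by norm_num
  rw [this, padicValNat.mul (by norm_num) (by norm_num), padicValNat.prime_pow,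
    padicValNat.eq_zero_of_not_dvd (by norm_num)]

theorem padicValNat_two_24 : padicValNat 2 24 = 3 := by
  have : (24 : ℕ) = 2 ^ 3 * 3 := by norm_num
  rw [this, padicValNat.mul (by norm_num) (by norm_num), padicValNat.prime_pow,
    padicValNat.eq_zero_of_not_dvd (by norm_num)]

theorem padicValNat_two_12 : padicValNat 2 12 = 2 := by
  have : (12 : ℕ) = 2 ^ 2 * 3 := by norm_num
  rw [this, padicValNat.mul (by norm_num) (by norm_num), padicValNat.prime_pow,
    padicValNat.eq_zero_of_not_dvd (by norm_num)]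

theorem congExp_three (p : ℕ) (hp : 2 ≤ p) :
    congExp p 3 = if p % 3 = 1 then 1 else 2 := by
  have hp1 : p - 1 ≠ 0 := by omega
  unfold congExp
  rw [padicValNat_three_24, padicValNat_three_12]
  split_ifs with h
  · have hd : 3 ∣ p - 1 := by omega
    have : 1 ≤ padicValNat 3 (p - 1) := one_le_padicValNat_of_dvd hp1 hd
    rw [min_eq_right this]
  · have hd : ¬ 3 ∣ p - 1 := by omega
    rw [padicValNat.eq_zero_of_not_dvd hd]
    simp

theorem congExp_two (p : ℕ) (hp : 3 ≤ p) (hodd : p % 2 = 1) :
    congExp p 2 = if p % 4 = 1 then 2 else 3 := by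
  have hp1 : p - 1 ≠ 0 := by omega
  unfold congExp
  rw [padicValNat_two_24, padicValNat_two_12]
  split_ifs with h
  · have hd : 2 ^ 2 ∣ p - 1 := by
      have : 4 ∣ p - 1 := by omega
      simpa using this
    have : 2 ≤ padicValNat 2 (p - 1) := (padicValNat_dvd_iff_le hp1).1 hd
    rw [min_eq_right this]
  · have hd : ¬ 2 ^ 2 ∣ p - 1 := by
      have : ¬ 4 ∣ p - 1 := by omega
      simpa using this
    have h1 : ¬ 2 ≤ padicValNat 2 (p - 1) := fun hle => hd ((padicValNat_dvd_iff_le hp1).2 hle)
    have hd2 : 2 ^ 1 ∣ p - 1 := by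
      have : 2 ∣ p - 1 := by omega
      simpa using this
    have h2 : 1 ≤ padicValNat 2 (p - 1) := (padicValNat_dvd_iff_le hp1).1 hd2
    have h3 : padicValNat 2 (p - 1) = 1 := by omega
    rw [h3]
    simp

theorem noCongAll (p : ℕ) [Fact p.Prime] (hp5 : 5 ≤ p) : NoCongAll p := by
  intro ℓ hℓ
  have hpp : p.Prime := Fact.out
  obtain ⟨T⟩ := nonempty_cuspZeroData p
  by_cases h5 : 5 ≤ ℓ
  · rw [congExp_of_five_le p ℓ hℓ h5]
    by_cases hℓp : ℓ = p
    · subst hℓp
      exact noCong_self ℓ hp5 T (swdConst ℓ hℓ h5)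
    · exact noCong_ge_five p hp5 ℓ hℓ h5 hℓp T (swdConst ℓ hℓ h5)
  · have hℓ23 : ℓ = 2 ∨ ℓ = 3 := by
      have h2 := hℓ.two_le
      have : ℓ < 5 := not_le.mp h5
      interval_cases ℓ
      · left; rfl
      · right; rfl
      · exact absurd hℓ (by decide)
    have hodd : p % 2 = 1 := by
      rcases hpp.eq_two_or_odd with h | h
      · omega
      · exact h
    rcases hℓ23 with rfl | rfl
    · rw [congExp_two p (by omega) hodd]
      split_ifs with h4
      · exact noCong_two_one p h4 T
      · have h8 : p % 8 = 3 ∨ p % 8 = 7 := by omega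
        rcases h8 with h8 | h8
        · exact noCong_two_three p h8 T
        · exact noCong_two_seven p h8 T
    · rw [congExp_three p (by omega)]
      split_ifs with h3
      · exact noCong_three_one p hp5 h3 T
      · exact noCong_three_two p hp5 T

end Fermat.Agent.S16
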