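import Fermat.Agent.S23
import Fermat.Agent.S16.Algebra
import Fermat.Agent.S16.LB
import Fermat.Agent.S16.EisForm
import Fermat.Agent.S16.NoCongAll
import Fermat.Agent.S16.FormsBound
import Fermat.Agent.S16.Duality

/-!
# S16: assembly
Owner: helper16.  When every piece is sorry-free this becomes `Fermat/Agent/S16.lean`.
-/

set_option autoImplicit false

namespace Fermat.Agent.S16

open ModularCurve CuspForm UpperHalfPlane ModularFormClass
open scoped MatrixGroups

/-- Algebra: the two bounds give the cardinality of `T/I`. -/
theorem card_of_bounds (p : ℕ) [Fact p.Prime] (hL : LowerBound p) (hU : UpperBound p) :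
    Nat.card (↥(heckeLatticeAlgebra p ∅) ⧸
        Ideal.map ((latticeRestrictHom p ∅).toRingHom.comp (heckeEvalForms p 2))
          (eisensteinIdeal p)) =
      eisensteinNumerator p :=
  card_of_bounds' p (Fermat.Agent.S23.result p) hL hU

theorem formsBound (p : ℕ) [Fact p.Prime] : FormsBound p := by
  by_cases hp : p < 5
  · exact formsBound_small p hp
  · exact formsBound_of_noCong p (eisForm p) (noCongAll p (not_lt.mp hp))

theorem upperBound (p : ℕ) [Fact p.Prime] : UpperBound p :=
  upperBound_of_formsBound p (formsBound p)

theorem main (p : ℕ) [Fact p.Prime] :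
    Nat.card (↥(heckeLatticeAlgebra p ∅) ⧸
        Ideal.map ((latticeRestrictHom p ∅).toRingHom.comp (heckeEvalForms p 2))
          (eisensteinIdeal p)) =
      eisensteinNumerator p :=
  card_of_bounds p (lowerBound p) (upperBound p)

end Fermat.Agent.S16
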